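import Fermat.Agent.Curve19.Descent
import Fermat.Agent.MordellWeil.Structure
import Fermat.Agent.Torsion.RealisedBasic
import Fermat.Agent.Frob.VarChange

/-!
# The Mordell–Weil group of `19a3`

`y² + y = x³ + x² + x` has exactly three rational points: every point is twice a point by the
two-descent, so the group is finite, and the torsion subgroup has order three.
-/

set_option autoImplicit false
set_option linter.style.haveILetI false

noncomputable section

open WeierstrassCurve
open FA.Frob (ratCurve vcEquiv)
open FA.Torsion (shortCurve countMod natCard_torsion_dvd cyclicHom cyclicHom_injective)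

namespace FA.Curve19

/-- The integral model. -/
def model19 : WeierstrassCurve ℤ := ⟨0, 1, 1, 1, 0⟩

/-- The curve `19a3`. -/
abbrev curve : WeierstrassCurve ℚ := ⟨0, 1, 1, 1, 0⟩

theorem ratCurve_model19 : ratCurve model19 = curve := by ext <;> simp [model19]

instance isElliptic_curve : curve.IsElliptic :=
  ratCurve_model19 ▸ FA.Frob.ratCurve_isElliptic_of_Δ (by decide)

/-- The change of coordinates to `W² = X³ + 4 X² + 16 X + 16`. -/
def toShort : VariableChange ℚ := ⟨Units.mk0 (1 / 2) (by norm_num), 0, 0, -1 / 2⟩

theorem toShort_smul : toShort • curve = shortCurve 4 16 16 := by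
  ext <;> simp [toShort, shortCurve, variableChange_a₁, variableChange_a₂, variableChange_a₃,
    variableChange_a₄, variableChange_a₆] <;> norm_num

theorem two_divisible (P : curve.toAffine.Point) : ∃ R, 2 • R = P := by
  haveI : (shortCurve (4 : ℚ) 16 16).IsElliptic := toShort_smul ▸ inferInstance
  obtain ⟨R, hR⟩ := exists_half ((vcEquiv toShort toShort_smul).symm P)
  exact ⟨vcEquiv toShort toShort_smul R, by rw [← map_nsmul, hR, AddEquiv.apply_symm_apply]⟩

local instance fact11 : Fact (Nat.Prime 11) := ⟨by norm_num⟩

local instance fact17 : Fact (Nat.Prime 17) := ⟨by norm_num⟩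

theorem gcd_count : (countMod model19 11).gcd (countMod model19 17) ∣ 3 := by decide +kernel

theorem finite_torsion_card :
    Finite (AddCommGroup.torsion curve.toAffine.Point) ∧
      Nat.card (AddCommGroup.torsion curve.toAffine.Point) ∣ 3 := by
  haveI := FA.Frob.ratCurve_isElliptic_of_Δ (W := model19) (by decide)
  obtain ⟨h, hd⟩ := natCard_torsion_dvd 11 model19 (by norm_num) (by decide)
  obtain ⟨-, hd'⟩ := natCard_torsion_dvd 17 model19 (by norm_num) (by decide)
  rw [← ratCurve_model19]
  exact ⟨h, (Nat.dvd_gcd hd hd').trans gcd_count⟩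

/-- Every rational point is torsion. -/
theorem isOfFinAddOrder_point (P : curve.toAffine.Point) : IsOfFinAddOrder P := by
  haveI := FA.MordellWeil.mordell curve
  obtain ⟨r, ⟨e⟩⟩ := FA.MordellWeil.exists_equiv_torsion_prod curve.toAffine.Point
  have h0 : (e P).2 = 0 := funext fun i => by
    exfalso
    obtain ⟨R, hR⟩ := two_divisible (e.symm (0, Pi.single i 1))
    have h := congrArg (fun Q => (e Q).2 i) hR
    simp [map_nsmul] at h
    omega
  obtain ⟨n, hn, hn0⟩ := isOfFinAddOrder_iff_nsmul_eq_zero.mp
    ((AddCommGroup.mem_torsion _).mp (e P).1.2)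
  refine isOfFinAddOrder_iff_nsmul_eq_zero.mpr ⟨n, hn, e.injective ?_⟩
  rw [map_nsmul, map_zero]
  exact Prod.ext (Subtype.ext hn0) (by rw [Prod.smul_snd, h0, smul_zero]; rfl)

/-- The point `(0, 0)`. -/
def basePoint : curve.toAffine.Point :=
  .some 0 0 (Affine.equation_iff_nonsingular.mp ((Affine.equation_iff _ _).mpr (by norm_num)))

theorem three_smul_basePoint : 3 • basePoint = 0 := by decide +kernel

theorem basePoint_injective : Function.Injective (cyclicHom basePoint three_smul_basePoint) :=
  cyclicHom_injective _ (by decide +kernel)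

theorem basePoint_surjective : Function.Surjective (cyclicHom basePoint three_smul_basePoint) := by
  obtain ⟨hfin, hd⟩ := finite_torsion_card
  let ψ := (cyclicHom basePoint three_smul_basePoint).codRestrict
    (AddCommGroup.torsion curve.toAffine.Point) fun _ =>
      (AddCommGroup.mem_torsion _).mpr (isOfFinAddOrder_point _)
  have hψ : Function.Injective ψ := fun x y e =>
    basePoint_injective (congrArg Subtype.val e)
  intro P
  obtain ⟨k, hk⟩ := (hψ.bijective_of_nat_card_le
    (by rw [Nat.card_zmod]; exact Nat.le_of_dvd (by norm_num) hd)).2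
    ⟨P, (AddCommGroup.mem_torsion _).mpr (isOfFinAddOrder_point P)⟩
  exact ⟨k, congrArg Subtype.val hk⟩

end FA.Curve19

namespace FA.Summary

open FA.Curve19

/-- **The Mordell–Weil group of `19a3`** is `ℤ/3`. -/
theorem point_group_curve19 :
    Nonempty ((⟨0, 1, 1, 1, 0⟩ : WeierstrassCurve ℚ).toAffine.Point ≃+ ZMod 3) :=
  ⟨(AddEquiv.ofBijective _ ⟨basePoint_injective, basePoint_surjective⟩).symm⟩

end FA.Summary

end
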